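import Fermat.Agent.BakerCubeRoot.Pade
import Mathlib.NumberTheory.Padics.PadicVal.Basic
import Mathlib.Data.ZMod.Basic
import Mathlib.RingTheory.Polynomial.Pochhammer

/-!
# Integrality of the approximations at `z = 3 / 125`, `ν = ± 1 / 3`

A product of `k` terms of an arithmetic progression with common difference `3` is divisible by
the prime-to-`3` part of `k!`, and the `3`-part of `k!` divides `3 ^ (k / 2)`.
-/

set_option autoImplicit false

noncomputable section

open Finset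

namespace FA.BakerCubeRoot

theorem coprime_dvd_prod_progression {u k : ℕ} (hu : u ∣ k.factorial) (h3 : Nat.Coprime 3 u)
    (hu0 : u ≠ 0) (m : ℤ) : (u : ℤ) ∣ ∏ i ∈ range k, (m - 3 * i) := by
  have : NeZero u := ⟨hu0⟩
  rw [← ZMod.intCast_zmod_eq_zero_iff_dvd]
  push_cast
  obtain ⟨c, hc⟩ : ∃ c : ZMod u, (3 : ZMod u) * c = 1 :=
    ⟨((ZMod.unitOfCoprime 3 h3)⁻¹ : (ZMod u)ˣ), by
      simpa using (ZMod.unitOfCoprime 3 h3).mul_inv⟩
  obtain ⟨N, hN⟩ : ∃ N : ℕ, (N : ZMod u) = c * m := ⟨(c * m).val, ZMod.natCast_zmod_val _⟩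
  have e : ∀ i : ℕ, (m : ZMod u) - 3 * i = 3 * ((N : ZMod u) - i) := fun i => by
    rw [hN]; linear_combination (-(m : ZMod u)) * hc
  rw [Finset.prod_congr rfl fun i _ => e i, Finset.prod_mul_distrib,
    ← descPochhammer_eval_eq_prod_range, descPochhammer_eval_eq_descFactorial,
    (ZMod.natCast_eq_zero_iff _ _).2 (hu.trans (Nat.factorial_dvd_descFactorial N k)),
    mul_zero]

theorem factorial_dvd_three_pow_mul_prod (m : ℤ) {n k : ℕ} (hk : k ≤ n) :
    (k.factorial : ℤ) ∣ 3 ^ (n / 2) * ∏ i ∈ range k, (m - 3 * i) := by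
  have : Fact (Nat.Prime 3) := ⟨Nat.prime_three⟩
  have hv : k.factorial.factorization 3 ≤ n / 2 := by
    have h := sub_one_mul_padicValNat_factorial (p := 3) k
    rw [Nat.factorization_def _ Nat.prime_three]
    omega
  rw [← Nat.ordProj_mul_ordCompl_eq_self k.factorial 3, Nat.cast_mul, Nat.cast_pow,
    show ((3 : ℕ) : ℤ) = 3 from rfl]
  exact mul_dvd_mul (pow_dvd_pow _ hv) (coprime_dvd_prod_progression (Nat.ordCompl_dvd _ _)
    (Nat.coprime_ordCompl Nat.prime_three k.factorial_ne_zero)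
    (Nat.ordCompl_pos 3 k.factorial_ne_zero).ne' m)

/-- The common denominator. -/
def scale (n : ℕ) : ℝ := 3 ^ (n / 2) * 125 ^ n

theorem scale_pos (n : ℕ) : 0 < scale n := by unfold scale; positivity

theorem scale_mul_eval_int (s : ℤ) (n : ℕ) :
    ∃ p : ℤ, (p : ℝ) = scale n * (pade ((s : ℝ) / 3) n).eval (3 / 125) := by
  have hd : ∀ k, ∃ d : ℤ, k ≤ n →
      3 ^ (n / 2) * ∏ i ∈ range k, (3 * (n : ℤ) + s - 3 * i) = k.factorial * d := fun k => by
    by_cases hk : k ≤ n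
    · obtain ⟨d, hd⟩ := factorial_dvd_three_pow_mul_prod (3 * (n : ℤ) + s) hk
      exact ⟨d, fun _ => hd⟩
    · exact ⟨0, fun h => absurd h hk⟩
  choose d hd using hd
  refine ⟨∑ k ∈ range (n + 1), d k * ((2 * n - k).choose n : ℤ) * 125 ^ (n - k), ?_⟩
  rw [eval_eq _ n (Nat.lt_succ_self n), mul_sum, Int.cast_sum]
  refine sum_congr rfl fun k hk => ?_
  have hk' : k ≤ n := Nat.lt_succ_iff.1 (Finset.mem_range.1 hk)
  rw [coeff_pade, if_pos hk']
  have h1 := congrArg (fun j : ℤ => (j : ℝ)) (hd k hk')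
  push_cast at h1 ⊢
  have h2 : rchoose ((n : ℝ) + (s : ℝ) / 3) k * 3 ^ k * k.factorial =
      ∏ i ∈ range k, (3 * (n : ℝ) + s - 3 * i) := by
    rw [← Finset.prod_range_add_one_eq_factorial, Nat.cast_prod, rchoose,
      Finset.pow_eq_prod_const, ← Finset.prod_mul_distrib, ← Finset.prod_mul_distrib]
    refine prod_congr rfl fun i _ => ?_
    push_cast
    field_simp
  have hf : (k.factorial : ℝ) ≠ 0 := Nat.cast_ne_zero.2 k.factorial_ne_zero
  rw [← h2] at h1
  have h3 : (d k : ℝ) = 3 ^ (n / 2) * (rchoose ((n : ℝ) + (s : ℝ) / 3) k * 3 ^ k) :=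
    mul_left_cancel₀ hf (by linear_combination -h1)
  rw [h3, scale, div_pow, show (125 : ℝ) ^ n = 125 ^ (n - k) * 125 ^ k by
    rw [← pow_add, Nat.sub_add_cancel hk']]
  field_simp

end FA.BakerCubeRoot

end
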