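import Fermat.Agent.BakerCubeRoot.Arithmetic

/-!
# Baker's effective measure of irrationality of the cube root of two

With `z = 3 / 125` one has `(5 / 4) ^ 3 * (1 + z) = 2`. The scaled approximations give integers
`pₙ`, `qₙ` with `|qₙ α - pₙ| ≤ 0.08 * η ^ n`, `qₙ ≤ 4.05 * 877 ^ n`, where `η = 39 / 1250`,
`877 ^ 200 * η ^ 391 ≤ 1`, and consecutive fractions `pₙ / qₙ` are distinct.
-/

set_option autoImplicit false

noncomputable section

open Polynomial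

namespace FA.BakerCubeRoot

theorem alpha_cube : ((2 : ℝ) ^ ((1 : ℝ) / 3)) ^ 3 = 2 := by
  rw [← Real.rpow_natCast, ← Real.rpow_mul two_pos.le]
  norm_num

theorem alpha_eq : (2 : ℝ) ^ ((1 : ℝ) / 3) = 5 / 4 * (1 + 3 / 125) ^ ((1 : ℝ) / 3) := by
  refine (pow_left_inj₀ (Real.rpow_nonneg two_pos.le _) (by positivity) three_ne_zero).1 ?_
  rw [alpha_cube, mul_pow, ← Real.rpow_natCast ((1 + 3 / 125 : ℝ) ^ ((1 : ℝ) / 3)),
    ← Real.rpow_mul (by norm_num)]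
  norm_num

theorem three_pow_half_le (n : ℕ) : (3 : ℝ) ^ (n / 2) ≤ (1733 / 1000) ^ n := by
  refine le_of_pow_le_pow_left₀ two_ne_zero (by positivity) ?_
  rw [← pow_mul, ← pow_mul, mul_comm n 2, pow_mul (1733 / 1000 : ℝ)]
  calc (3 : ℝ) ^ (n / 2 * 2) ≤ 3 ^ n := pow_le_pow_right₀ (by norm_num) (Nat.div_mul_le_self n 2)
    _ ≤ ((1733 / 1000 : ℝ) ^ 2) ^ n := pow_le_pow_left₀ (by norm_num) (by norm_num) n

theorem four_pow_le_centralBinom (n : ℕ) :
    (4 : ℝ) ^ n ≤ 2 * ((n : ℝ) + 1) * n.centralBinom := by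
  rcases Nat.eq_zero_or_pos n with rfl | hn
  · simp
  · calc (4 : ℝ) ^ n ≤ 2 * (n : ℝ) * n.centralBinom := by
          exact_mod_cast Nat.four_pow_le_two_mul_self_mul_centralBinom n hn
      _ ≤ _ := by gcongr; linarith

theorem centralBinom_le_four_pow (n : ℕ) : (n.centralBinom : ℝ) ≤ 4 ^ n := by
  have h : n.centralBinom ≤ 4 ^ n := by
    rw [Nat.centralBinom_eq_two_mul_choose,
      show (4 : ℕ) ^ n = 2 ^ (2 * n) by rw [pow_mul]; norm_num]
    exact Nat.choose_le_two_pow _ _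
  exact_mod_cast h

/-- The integer approximations. -/
theorem exists_approximations :
    ∃ p q : ℕ → ℤ, (∀ n, 0 < q n ∧ (q n : ℝ) ≤ 81 / 20 * 877 ^ n ∧
      |(q n : ℝ) * (2 : ℝ) ^ ((1 : ℝ) / 3) - p n| ≤ 2 / 25 * (39 / 1250) ^ n) ∧
      ∀ n, p n * q (n + 1) ≠ p (n + 1) * q n := by
  obtain ⟨α, hα⟩ : ∃ α : ℝ, α = (2 : ℝ) ^ ((1 : ℝ) / 3) := ⟨_, rfl⟩
  have hνp : |(1 / 3 : ℝ)| < 1 := by norm_num [abs_lt]
  have hνm : |(-(1 / 3) : ℝ)| < 1 := by norm_num [abs_lt]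
  choose P hP using fun n => scale_mul_eval_int 1 n
  choose Q hQ using fun n => scale_mul_eval_int (-1) n
  have hP' : ∀ n, (P n : ℝ) = scale n * (pade (1 / 3) n).eval (3 / 125) := fun n => by
    rw [hP]; norm_num
  have hQ' : ∀ n, (Q n : ℝ) = scale n * (pade (-(1 / 3)) n).eval (3 / 125) := fun n => by
    rw [hQ]; norm_num
  refine ⟨fun n => 5 * P n, fun n => 4 * Q n, fun n => ?_, fun n => ?_⟩
  · have hsc := scale_pos n
    obtain ⟨A, hA⟩ : ∃ A : ℝ, A = (pade (1 / 3) n).eval (3 / 125) := ⟨_, rfl⟩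
    obtain ⟨B, hB⟩ : ∃ B : ℝ, B = (pade (-(1 / 3)) n).eval (3 / 125) := ⟨_, rfl⟩
    have hA0 : 0 < A := hA ▸ eval_pos hνp n (by norm_num)
    have hB0 : 0 < B := hB ▸ eval_pos hνm n (by norm_num)
    refine ⟨?_, ?_, ?_⟩
    · have h : (0 : ℝ) < (4 * Q n : ℤ) := by
        push_cast
        rw [hQ', ← hB]
        positivity
      exact_mod_cast h
    · push_cast
      rw [hQ', ← hB, scale]
      have hBle : B ≤ (4 : ℝ) ^ n * (253 / 250) ^ (n + 1) := by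
        rw [hB]
        refine (eval_le hνm n (by norm_num : (0 : ℝ) ≤ 3 / 125)).trans ?_
        rw [show (1 : ℝ) + 3 / 125 / 2 = 253 / 250 by norm_num]
        exact mul_le_mul_of_nonneg_right (centralBinom_le_four_pow n) (by positivity)
      calc 4 * (3 ^ (n / 2) * 125 ^ n * B)
          ≤ 4 * ((1733 / 1000) ^ n * 125 ^ n * ((4 : ℝ) ^ n * (253 / 250) ^ (n + 1))) := by
            gcongr
            exact three_pow_half_le n
        _ = 4 * (253 / 250) * ((1733 / 1000) * 125 * (4 * (253 / 250))) ^ n := by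
            simp only [mul_pow, pow_succ]
            ring
        _ ≤ 81 / 20 * 877 ^ n := by
            gcongr ?_ * ?_ ^ n <;> norm_num
    · push_cast
      rw [hP', hQ', ← hA, ← hB, alpha_eq]
      have e : 4 * (scale n * B) * (5 / 4 * (1 + 3 / 125) ^ ((1 : ℝ) / 3)) - 5 * (scale n * A) =
          5 * scale n * A * (ratio (1 / 3) n (3 / 125) - 1) := by
        rw [ratio, ← hA, ← hB]
        field_simp
      rw [e, abs_mul, abs_of_pos (mul_pos (mul_pos (by norm_num) hsc) hA0)]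
      have hcb : (4 : ℝ) ^ n ≤ 2 * ((n : ℝ) + 1) * A :=
        (four_pow_le_centralBinom n).trans (mul_le_mul_of_nonneg_left
          (hA ▸ centralBinom_le_eval hνp n (by norm_num)) (by positivity))
      calc 5 * scale n * A * |ratio (1 / 3) n (3 / 125) - 1|
          ≤ 5 * scale n * A * (1 / 3 * (3 / 125) ^ (2 * n + 1) / (((n : ℝ) + 1) * A ^ 2)) := by
            rw [hA] at hA0 ⊢
            exact mul_le_mul_of_nonneg_left (ratio_bound (by norm_num) (by norm_num) n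
              (by norm_num) (by norm_num)) (by positivity)
        _ = 5 / 3 * (3 / 125) ^ (2 * n + 1) * scale n / (((n : ℝ) + 1) * A) := by field_simp
        _ ≤ 5 / 3 * (3 / 125) ^ (2 * n + 1) * ((1733 / 1000) ^ n * 125 ^ n) /
            ((4 : ℝ) ^ n / 2) := by
            rw [scale]
            gcongr
            · exact three_pow_half_le n
            · linarith
        _ = 2 / 25 * ((3 / 125) ^ 2 * (1733 / 1000) * 125 / 4) ^ n := by
            simp only [pow_succ (3 / 125 : ℝ) (2 * n), pow_mul, div_pow, mul_pow]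
            field_simp
            ring
        _ ≤ 2 / 25 * (39 / 1250) ^ n := mul_le_mul_of_nonneg_left
            (pow_le_pow_left₀ (by norm_num) (by norm_num) n) (by norm_num)
  · intro h
    have h' := congrArg (fun j : ℤ => (j : ℝ)) h
    push_cast at h'
    rw [hP', hP', hQ', hQ'] at h'
    have hlt := ratio_succ_lt (ν := (1 / 3 : ℝ)) (by norm_num) (by norm_num) n
      (z := 3 / 125) (by norm_num) (by norm_num)
    have hA0 := eval_pos hνp n (show (0 : ℝ) ≤ 3 / 125 by norm_num)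
    have hA1 := eval_pos hνp (n + 1) (show (0 : ℝ) ≤ 3 / 125 by norm_num)
    rw [ratio, ratio, div_lt_div_iff₀ hA1 hA0] at hlt
    have hs := mul_pos (scale_pos n) (scale_pos (n + 1))
    refine hlt.ne ?_
    refine mul_left_cancel₀ hs.ne' ?_
    linear_combination (1 + 3 / 125 : ℝ) ^ ((1 : ℝ) / 3) / 20 * h'

theorem le_rpow_of_pow_le {a b : ℝ} (hb : 0 ≤ b) (h : a ^ 200 ≤ b ^ 391) :
    a ≤ b ^ ((391 : ℝ) / 200) := by
  refine le_of_pow_le_pow_left₀ (show (200 : ℕ) ≠ 0 by norm_num) (Real.rpow_nonneg hb _) ?_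
  rwa [← Real.rpow_natCast (b ^ ((391 : ℝ) / 200)), ← Real.rpow_mul hb,
    show (391 : ℝ) / 200 * ((200 : ℕ) : ℝ) = ((391 : ℕ) : ℝ) by norm_num, Real.rpow_natCast]

set_option exponentiation.threshold 400 in
theorem growth_le : (877 : ℝ) ^ 200 * (39 / 1250) ^ 391 ≤ 1 := by norm_num

set_option exponentiation.threshold 400 in
theorem lt_abs_mul_sub (p q : ℤ) (hq : q ≠ 0) :
    1 / 10 ^ 6 / |(q : ℝ)| ^ ((391 : ℝ) / 200) < |(q : ℝ) * (2 : ℝ) ^ ((1 : ℝ) / 3) - p| := by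
  classical
  obtain ⟨P, Q, hPQ, hdist⟩ := exists_approximations
  obtain ⟨α, hα⟩ : ∃ α : ℝ, α = (2 : ℝ) ^ ((1 : ℝ) / 3) := ⟨_, rfl⟩
  rw [← hα] at hPQ ⊢
  obtain ⟨N, hN⟩ : ∃ N : ℝ, N = |(q : ℝ)| := ⟨_, rfl⟩
  have hN1 : 1 ≤ N := hN ▸ (by exact_mod_cast Int.one_le_abs hq)
  rw [← hN]
  have hex : ∃ n : ℕ, 4 / 25 * N * (39 / 1250 : ℝ) ^ n < 1 := by
    obtain ⟨n, hn⟩ := exists_pow_lt_of_lt_one (show (0 : ℝ) < 1 / (4 / 25 * N) by positivity)
      (show (39 / 1250 : ℝ) < 1 by norm_num)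
    exact ⟨n, by rw [lt_div_iff₀ (by positivity)] at hn; linarith⟩
  obtain ⟨n, hn, hmin⟩ : ∃ n, 4 / 25 * N * (39 / 1250 : ℝ) ^ n < 1 ∧
      ∀ j, j < n → 1 ≤ 4 / 25 * N * (39 / 1250 : ℝ) ^ j :=
    ⟨Nat.find hex, Nat.find_spec hex, fun j hj => not_lt.1 (Nat.find_min hex hj)⟩
  have hgrow : (877 : ℝ) ^ (n + 1) ≤ 877 ^ 2 / 25 * N ^ ((391 : ℝ) / 200) := by
    have hN0 : 1 ≤ N ^ ((391 : ℝ) / 200) := Real.one_le_rpow hN1 (by norm_num)
    rcases n with - | j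
    · calc (877 : ℝ) ^ (0 + 1) ≤ 877 ^ 2 / 25 * 1 := by norm_num
        _ ≤ _ := by gcongr
    · have h1 := hmin j (Nat.lt_succ_self j)
      have h2 : (877 : ℝ) ^ j ≤ (4 / 25 * N) ^ ((391 : ℝ) / 200) := by
        refine le_rpow_of_pow_le (by positivity) ?_
        have h3 : ((877 : ℝ) ^ j) ^ 200 * (((39 / 1250 : ℝ)) ^ j) ^ 391 ≤ 1 := by
          rw [← pow_mul, ← pow_mul, mul_comm j 200, mul_comm j 391, pow_mul, pow_mul, ← mul_pow]
          exact pow_le_one₀ (by positivity) growth_le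
        refine le_of_mul_le_mul_right (h3.trans ?_) (by positivity :
          (0 : ℝ) < ((39 / 1250 : ℝ) ^ j) ^ 391)
        rw [← mul_pow]
        exact one_le_pow₀ h1
      have h4 : (4 / 25 : ℝ) ^ ((391 : ℝ) / 200) ≤ 1 / 25 := by
        rw [div_eq_mul_inv (391 : ℝ), Real.rpow_mul (by norm_num),
          Real.rpow_inv_le_iff_of_pos (by positivity) (by norm_num) (by norm_num)]
        norm_num
      rw [Real.mul_rpow (by norm_num) (by linarith)] at h2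
      calc (877 : ℝ) ^ (j + 1 + 1) = 877 ^ 2 * 877 ^ j := by ring
        _ ≤ 877 ^ 2 * (1 / 25 * N ^ ((391 : ℝ) / 200)) :=
            mul_le_mul_of_nonneg_left (h2.trans (by gcongr)) (by positivity)
        _ = _ := by ring
  obtain ⟨m, hnm, hmn, hne⟩ : ∃ m, n ≤ m ∧ m ≤ n + 1 ∧ q * P m - p * Q m ≠ 0 := by
    by_contra! h
    have h0 := h n le_rfl (Nat.le_succ n)
    have h1 := h (n + 1) (Nat.le_succ n) le_rfl
    refine hdist n (mul_left_cancel₀ hq ?_)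
    linear_combination Q (n + 1) * h0 - Q n * h1
  obtain ⟨hQ0, hQle, herr⟩ := hPQ m
  have hD : (1 : ℝ) ≤ |(q : ℝ) * P m - p * Q m| := by exact_mod_cast Int.one_le_abs hne
  have hQ0' : (0 : ℝ) < Q m := Int.cast_pos.2 hQ0
  have herr' : N * |(Q m : ℝ) * α - P m| ≤ 1 / 2 := by
    have h1 : (39 / 1250 : ℝ) ^ m ≤ (39 / 1250) ^ n :=
      pow_le_pow_of_le_one (by norm_num) (by norm_num) hnm
    have h2 := mul_le_mul_of_nonneg_left (herr.trans (mul_le_mul_of_nonneg_left h1 (by norm_num)))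
      (zero_le_one.trans hN1)
    linarith
  have hkey : 1 / 2 ≤ (Q m : ℝ) * |(q : ℝ) * α - p| := by
    have e : (q : ℝ) * P m - p * Q m =
        (Q m : ℝ) * (q * α - p) - q * ((Q m : ℝ) * α - P m) := by ring
    rw [e] at hD
    have h := hD.trans (abs_sub _ _)
    rw [abs_mul, abs_mul, abs_of_pos hQ0', ← hN] at h
    linarith
  have hup : (Q m : ℝ) ≤ 81 / 20 * (877 ^ 2 / 25 * N ^ ((391 : ℝ) / 200)) :=
    hQle.trans (mul_le_mul_of_nonneg_left
      ((pow_le_pow_right₀ (by norm_num) hmn).trans hgrow) (by norm_num))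
  obtain ⟨R, hR⟩ : ∃ R : ℝ, R = N ^ ((391 : ℝ) / 200) := ⟨_, rfl⟩
  rw [← hR] at hup ⊢
  have hR0 : 0 < R := hR ▸ Real.rpow_pos_of_pos (by linarith) _
  rw [div_lt_iff₀ hR0]
  have h := hkey.trans (mul_le_mul_of_nonneg_right hup (abs_nonneg _))
  linarith

/-- **Baker's theorem (1964).** -/
theorem irrationality_measure (p q : ℤ) (hq : q ≠ 0) :
    1 / 10 ^ 6 / |(q : ℝ)| ^ ((591 : ℝ) / 200) < |(2 : ℝ) ^ ((1 : ℝ) / 3) - p / q| := by
  have h := lt_abs_mul_sub p q hq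
  have hq' : 0 < |(q : ℝ)| := abs_pos.2 (Int.cast_ne_zero.2 hq)
  rw [show (591 : ℝ) / 200 = 391 / 200 + 1 by norm_num, Real.rpow_add hq', Real.rpow_one,
    ← div_div, div_lt_iff₀ hq']
  refine h.trans_eq ?_
  rw [← abs_mul, sub_mul, div_mul_cancel₀ _ (Int.cast_ne_zero.2 hq), mul_comm]

/-- The Thue equation `x ^ 3 - 2 * y ^ 3 = m`. -/
theorem thue_bound {x y m : ℤ} (h : x ^ 3 - 2 * y ^ 3 = m) :
    |y| ^ 9 ≤ (10 ^ 6 * |m|) ^ 200 ∧ |x| ≤ 2 * |y| + |m| := by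
  constructor
  · rcases eq_or_ne y 0 with rfl | hy
    · simp only [abs_zero, ne_eq, OfNat.ofNat_ne_zero, not_false_eq_true, zero_pow]
      positivity
    obtain ⟨α, hα⟩ : ∃ α : ℝ, α = (2 : ℝ) ^ ((1 : ℝ) / 3) := ⟨_, rfl⟩
    have h3 : α ^ 3 = 2 := hα ▸ alpha_cube
    have hα0 : 0 ≤ α := hα ▸ Real.rpow_nonneg two_pos.le _
    have hlow : 6 / 5 ≤ α := le_of_pow_le_pow_left₀ three_ne_zero hα0 (by rw [h3]; norm_num)
    have hfac : ((x : ℝ) - α * y) * ((x : ℝ) ^ 2 + α * x * y + α ^ 2 * y ^ 2) = m := by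
      rw [← h]
      push_cast
      linear_combination -(y : ℝ) ^ 3 * h3
    have hsnd : (y : ℝ) ^ 2 ≤ (x : ℝ) ^ 2 + α * x * y + α ^ 2 * y ^ 2 := by
      have h2 := mul_le_mul_of_nonneg_right (pow_le_pow_left₀ (by norm_num) hlow 2)
        (sq_nonneg (y : ℝ))
      linarith [sq_nonneg ((x : ℝ) + α * y / 2), sq_nonneg (y : ℝ)]
    obtain ⟨Y, hY⟩ : ∃ Y : ℝ, Y = |(y : ℝ)| := ⟨_, rfl⟩
    have hY0 : 0 < Y := hY ▸ abs_pos.2 (Int.cast_ne_zero.2 hy)
    have hb := lt_abs_mul_sub x y hy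
    rw [← hα, ← hY, show (y : ℝ) * α - x = -((x : ℝ) - α * y) by ring, abs_neg] at hb
    have hbig : 1 / 10 ^ 6 / Y ^ ((391 : ℝ) / 200) * Y ^ 2 ≤ |(m : ℝ)| := by
      rw [← hfac, abs_mul, abs_of_nonneg ((sq_nonneg (y : ℝ)).trans hsnd)]
      refine mul_le_mul hb.le ?_ (by positivity) (abs_nonneg _)
      rw [hY, sq_abs]
      exact hsnd
    have e : 1 / 10 ^ 6 / Y ^ ((391 : ℝ) / 200) * Y ^ 2 = 1 / 10 ^ 6 * Y ^ ((9 : ℝ) / 200) := by
      rw [show (9 : ℝ) / 200 = ((2 : ℕ) : ℝ) - 391 / 200 by norm_num, Real.rpow_sub hY0,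
        Real.rpow_natCast]
      ring
    rw [e] at hbig
    have hle : Y ^ ((9 : ℝ) / 200) ≤ 10 ^ 6 * |(m : ℝ)| := by linarith
    have := pow_le_pow_left₀ (Real.rpow_nonneg hY0.le _) hle 200
    rw [← Real.rpow_natCast (Y ^ ((9 : ℝ) / 200)), ← Real.rpow_mul hY0.le,
      show (9 : ℝ) / 200 * ((200 : ℕ) : ℝ) = ((9 : ℕ) : ℝ) by norm_num, Real.rpow_natCast,
      hY] at this
    exact_mod_cast this
  · refine le_of_pow_le_pow_left₀ three_ne_zero (by positivity) ?_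
    rw [pow_abs, show x ^ 3 = 2 * y ^ 3 + m by linarith]
    refine (abs_add_le _ _).trans ?_
    rw [abs_mul, abs_two, abs_pow]
    have hm : |m| ≤ |m| ^ 3 := by
      rcases eq_or_ne m 0 with rfl | hm
      · simp
      · exact le_self_pow₀ (Int.one_le_abs hm) three_ne_zero
    have h1 := pow_nonneg (abs_nonneg y) 3
    have h2 := mul_nonneg (mul_nonneg (abs_nonneg y) (abs_nonneg y)) (abs_nonneg m)
    have h3 := mul_nonneg (mul_nonneg (abs_nonneg y) (abs_nonneg m)) (abs_nonneg m)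
    linarith [show (2 * |y| + |m|) ^ 3 = 8 * |y| ^ 3 + 12 * (|y| * |y| * |m|) +
      6 * (|y| * |m| * |m|) + |m| ^ 3 by ring]

theorem thue_box {x y m : ℤ} (h : x ^ 3 - 2 * y ^ 3 = m) :
    |y| ≤ (10 ^ 6 * |m|) ^ 23 ∧ |x| ≤ 2 * (10 ^ 6 * |m|) ^ 23 + |m| := by
  obtain ⟨hy, hx⟩ := thue_bound h
  obtain ⟨B, hB⟩ : ∃ B : ℤ, B = 10 ^ 6 * |m| := ⟨_, rfl⟩
  rw [← hB] at hy ⊢
  have hB0 : 0 ≤ B := hB ▸ by positivity
  suffices h' : |y| ≤ B ^ 23 from ⟨h', hx.trans (by linarith)⟩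
  refine le_of_pow_le_pow_left₀ (show (9 : ℕ) ≠ 0 by norm_num) (by positivity) ?_
  refine hy.trans ?_
  rw [← pow_mul]
  rcases eq_or_ne B 0 with h0 | h0
  · simp [h0]
  · exact pow_le_pow_right₀ (Int.add_one_le_iff.2 (lt_of_le_of_ne hB0 h0.symm)) (by norm_num)

end FA.BakerCubeRoot

end
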