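import Mathlib.Analysis.SpecialFunctions.Pow.Deriv
import Mathlib.Analysis.Calculus.Deriv.MeanValue
import Mathlib.Analysis.Calculus.Deriv.Polynomial
import Mathlib.Data.Nat.Choose.Central
import Mathlib.Algebra.Polynomial.BigOperators
import Mathlib.Topology.Algebra.Polynomial

/-!
# The approximations of Thue and Siegel to `(1 + z) ^ ν`

The polynomials `∑ C(n ± ν, k) C(2 n - k, n) z ^ k` satisfy hypergeometric equations, so their
Wronskian with the power is a single monomial. Hence the error, relative to the numerator, has a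
derivative with a constant sign, which gives both its size and the distinctness of consecutive
approximations.
-/

set_option autoImplicit false

noncomputable section

open Polynomial Finset

namespace FA.BakerCubeRoot

/-- The binomial coefficient of a real number. -/
def rchoose (a : ℝ) (k : ℕ) : ℝ := ∏ i ∈ range k, (a - i) / (i + 1)

/-- The approximation. -/
def pade (ν : ℝ) (n : ℕ) : ℝ[X] :=
  ∑ k ∈ range (n + 1), C (rchoose (n + ν) k * ((2 * n - k).choose n : ℝ)) * X ^ k

theorem coeff_pade (ν : ℝ) (n k : ℕ) : (pade ν n).coeff k =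
    if k ≤ n then rchoose (n + ν) k * ((2 * n - k).choose n : ℝ) else 0 := by
  rw [pade, finsetSum_coeff]
  simp only [coeff_C_mul_X_pow, Finset.sum_ite_eq, Finset.mem_range, Nat.lt_succ_iff]

theorem natDegree_pade_le (ν : ℝ) (n : ℕ) : (pade ν n).natDegree ≤ n :=
  natDegree_sum_le_of_forall_le _ _ fun _ hk =>
    (natDegree_C_mul_X_pow_le _ _).trans (Nat.lt_succ_iff.1 (Finset.mem_range.1 hk))

theorem pade_recurrence (ν : ℝ) (n k : ℕ) :
    ((k : ℝ) + 1) * (2 * n - k) * (pade ν n).coeff (k + 1) =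
      ((n : ℝ) + ν - k) * (n - k) * (pade ν n).coeff k := by
  rcases lt_trichotomy k n with h | h | h
  · rw [coeff_pade, coeff_pade, if_pos (show k + 1 ≤ n by omega), if_pos h.le]
    have hc : ((2 * n - (k + 1)).choose n : ℝ) * (2 * n - k) =
        ((2 * n - k).choose n : ℝ) * (n - k) := by
      have h1 := Nat.choose_mul_succ_eq (2 * n - (k + 1)) n
      rw [show 2 * n - (k + 1) + 1 = 2 * n - k by omega,
        show 2 * n - k - n = n - k by omega] at h1
      have := congrArg (fun j : ℕ => (j : ℝ)) h1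
      push_cast [Nat.cast_sub (show k ≤ 2 * n by omega), Nat.cast_sub h.le] at this
      exact this
    rw [rchoose, prod_range_succ, ← rchoose]
    field_simp
    linear_combination ((n : ℝ) + ν - k) * rchoose (n + ν) k * hc
  · subst h
    simp [coeff_pade]
  · simp [coeff_pade, show ¬k + 1 ≤ n by omega, show ¬k ≤ n by omega]

theorem pade_ode (ν : ℝ) (n : ℕ) :
    X * derivative (derivative (pade ν n)) + X * (X * derivative (derivative (pade ν n))) +
      C (-2 * (n : ℝ)) * derivative (pade ν n) +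
      C (1 - 2 * (n : ℝ) - ν) * (X * derivative (pade ν n)) +
      C ((n : ℝ) * (n + ν)) * pade ν n = 0 := by
  ext k
  simp only [coeff_add, coeff_C_mul, coeff_zero]
  rcases k with - | k
  · simp only [mul_coeff_zero, coeff_X_zero, zero_mul, coeff_derivative]
    have := pade_recurrence ν n 0
    push_cast at this ⊢
    linear_combination -this
  rcases k with - | k
  · simp only [coeff_X_mul, mul_coeff_zero, coeff_X_zero, coeff_derivative]
    have := pade_recurrence ν n 1
    push_cast at this ⊢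
    linear_combination -this
  · simp only [coeff_X_mul, coeff_derivative]
    have := pade_recurrence ν n (k + 2)
    push_cast at this ⊢
    linear_combination -this

/-- The product of the leading coefficients. -/
def lead (ν : ℝ) (n : ℕ) : ℝ := rchoose (n + ν) n * rchoose (n + -ν) n

theorem wronskian (ν : ℝ) (n : ℕ) :
    (1 + X) * (pade ν n * derivative (pade (-ν) n) - derivative (pade ν n) * pade (-ν) n) +
      C ν * (pade ν n * pade (-ν) n) = C (ν * lead ν n) * X ^ (2 * n) := by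
  obtain ⟨P, hP⟩ : ∃ P, P = pade ν n := ⟨_, rfl⟩
  obtain ⟨Q, hQ⟩ : ∃ Q, Q = pade (-ν) n := ⟨_, rfl⟩
  obtain ⟨S, hS⟩ : ∃ S, S = (1 + X) * (P * derivative Q - derivative P * Q) + C ν * (P * Q) :=
    ⟨_, rfl⟩
  have h1 := pade_ode ν n
  have h2 := pade_ode (-ν) n
  rw [← hP] at h1
  rw [← hQ] at h2
  have hode : X * derivative S = C (2 * (n : ℝ)) * S := by
    rw [hS]
    simp only [map_add, map_sub, derivative_mul, derivative_X, derivative_one, derivative_C]
    simp only [map_add, map_sub, map_mul, map_neg, map_one, map_ofNat, map_natCast] at h1 h2 ⊢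
    linear_combination P * h2 - Q * h1
  have hmono : S = C (S.coeff (2 * n)) * X ^ (2 * n) := by
    ext k
    rw [coeff_C_mul_X_pow]
    by_cases hk : k = 2 * n
    · rw [hk, if_pos rfl]
    rw [if_neg hk]
    have h3 := congrArg (fun T : ℝ[X] => T.coeff k) hode
    simp only [coeff_C_mul] at h3
    rcases k with - | j
    · simp only [mul_coeff_zero, coeff_X_zero, zero_mul] at h3
      have hn : (2 * (n : ℝ)) ≠ 0 := by exact_mod_cast fun e => hk (by omega)
      exact (mul_eq_zero.1 h3.symm).resolve_left hn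
    · rw [coeff_X_mul, coeff_derivative] at h3
      have hn : ((j : ℝ) + 1) - 2 * n ≠ 0 := sub_ne_zero.2 (by exact_mod_cast hk)
      exact (mul_eq_zero.1 (show (((j : ℝ) + 1) - 2 * n) * S.coeff (j + 1) = 0 by
        linarith)).resolve_left hn
  rw [← hP, ← hQ, ← hS, hmono]
  congr 2
  have hPd : P.natDegree ≤ n := hP ▸ natDegree_pade_le ν n
  have hQd : Q.natDegree ≤ n := hQ ▸ natDegree_pade_le (-ν) n
  have hXP : (X * derivative P).natDegree ≤ n := by
    rw [natDegree_le_iff_coeff_eq_zero]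
    intro i hi
    obtain ⟨j, rfl⟩ : ∃ j, i = j + 1 := ⟨i - 1, by omega⟩
    rw [coeff_X_mul, coeff_derivative, coeff_eq_zero_of_natDegree_lt (by omega), zero_mul]
  have hXQ : (X * derivative Q).natDegree ≤ n := by
    rw [natDegree_le_iff_coeff_eq_zero]
    intro i hi
    obtain ⟨j, rfl⟩ : ∃ j, i = j + 1 := ⟨i - 1, by omega⟩
    rw [coeff_X_mul, coeff_derivative, coeff_eq_zero_of_natDegree_lt (by omega), zero_mul]
  have hXc : ∀ T : ℝ[X], (X * derivative T).coeff n = (n : ℝ) * T.coeff n := fun T => by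
    rcases n with - | m
    · simp
    · rw [coeff_X_mul, coeff_derivative]
      push_cast
      ring
  obtain ⟨W, hW⟩ : ∃ W, W = P * derivative Q - derivative P * Q := ⟨_, rfl⟩
  have hXW : X * W = P * (X * derivative Q) - (X * derivative P) * Q := by rw [hW]; ring
  have hdeg : (X * W).natDegree ≤ 2 * n := by
    rw [hXW]
    exact (natDegree_sub_le _ _).trans (max_le
      (natDegree_mul_le.trans (by omega)) (natDegree_mul_le.trans (by omega)))
  have c0 : W.coeff (2 * n) = 0 := by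
    rw [← coeff_X_mul]
    exact coeff_eq_zero_of_natDegree_lt (by omega)
  have c1 : (X * W).coeff (2 * n) = 0 := by
    rw [hXW, two_mul, coeff_sub, coeff_mul_add_eq_of_natDegree_le hPd hXQ,
      coeff_mul_add_eq_of_natDegree_le hXP hQd, hXc, hXc]
    ring
  rw [hS, ← hW, add_mul, one_mul, coeff_add, coeff_add, c0, c1, coeff_C_mul, two_mul,
    coeff_mul_add_eq_of_natDegree_le hPd hQd, hP, hQ, coeff_pade, coeff_pade, if_pos le_rfl,
    if_pos le_rfl, show 2 * n - n = n by omega, Nat.choose_self, lead]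
  push_cast
  ring

theorem rchoose_pos {a : ℝ} {k : ℕ} (h : (k : ℝ) - 1 < a) : 0 < rchoose a k :=
  prod_pos fun i hi => div_pos (sub_pos.2 ((show (i : ℝ) ≤ (k : ℝ) - 1 by
    have : ((i + 1 : ℕ) : ℝ) ≤ k := Nat.cast_le.2 (Finset.mem_range.1 hi)
    push_cast at this
    linarith).trans_lt h)) (by positivity)

variable {ν : ℝ}

theorem coeff_nonneg (hν : |ν| < 1) (n k : ℕ) : 0 ≤ (pade ν n).coeff k := by
  rw [coeff_pade]
  split_ifs with h
  · refine mul_nonneg (rchoose_pos ?_).le (Nat.cast_nonneg _)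
    have h1 := (abs_lt.1 hν).1
    have : (k : ℝ) ≤ n := Nat.cast_le.2 h
    linarith
  · exact le_rfl

theorem eval_eq (ν : ℝ) (n : ℕ) {M : ℕ} (hM : n < M) (t : ℝ) :
    (pade ν n).eval t = ∑ k ∈ range M, (pade ν n).coeff k * t ^ k :=
  eval_eq_sum_range' ((natDegree_pade_le ν n).trans_lt hM) t

theorem centralBinom_le_eval (hν : |ν| < 1) (n : ℕ) {t : ℝ} (ht : 0 ≤ t) :
    (n.centralBinom : ℝ) ≤ (pade ν n).eval t := by
  rw [eval_eq ν n (Nat.lt_succ_self n) t, sum_range_succ']
  have h0 : (pade ν n).coeff 0 = n.centralBinom := by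
    simp [coeff_pade, rchoose, Nat.centralBinom_eq_two_mul_choose]
  rw [h0, pow_zero, mul_one]
  exact le_add_of_nonneg_left (sum_nonneg fun k _ =>
    mul_nonneg (coeff_nonneg hν _ _) (pow_nonneg ht _))

theorem eval_pos (hν : |ν| < 1) (n : ℕ) {t : ℝ} (ht : 0 ≤ t) : 0 < (pade ν n).eval t :=
  lt_of_lt_of_le (Nat.cast_pos.2 (Nat.centralBinom_pos n)) (centralBinom_le_eval hν n ht)

theorem coeff_succ_le (hν : |ν| < 1) (n k : ℕ) :
    2 * ((k : ℝ) + 1) * (pade ν n).coeff (k + 1) ≤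
      ((n : ℝ) + 1 - k) * (pade ν n).coeff k := by
  rcases le_or_gt n k with h | h
  · have h0 : (pade ν n).coeff (k + 1) = 0 := by
      rw [coeff_pade, if_neg (by omega)]
    rw [h0, mul_zero]
    rcases h.eq_or_lt with rfl | h
    · simp only [add_sub_cancel_left, one_mul]
      exact coeff_nonneg hν _ _
    · rw [coeff_pade, if_neg (by omega), mul_zero]
  · have hnk : (0 : ℝ) < n - k := sub_pos.2 (Nat.cast_lt.2 h)
    have h2 : (0 : ℝ) < 2 * n - k := by linarith [(Nat.cast_nonneg n : (0 : ℝ) ≤ n)]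
    refine le_of_mul_le_mul_right ?_ h2
    calc 2 * ((k : ℝ) + 1) * (pade ν n).coeff (k + 1) * (2 * n - k)
        = 2 * (((n : ℝ) + ν - k) * (n - k) * (pade ν n).coeff k) := by
          rw [← pade_recurrence]; ring
      _ ≤ 2 * (((n : ℝ) + 1 - k) * (n - k) * (pade ν n).coeff k) := by
          refine mul_le_mul_of_nonneg_left (mul_le_mul_of_nonneg_right
            (mul_le_mul_of_nonneg_right ?_ hnk.le) (coeff_nonneg hν _ _)) two_pos.le
          linarith [(abs_lt.1 hν).2]
      _ = ((n : ℝ) + 1 - k) * (pade ν n).coeff k * (2 * ((n : ℝ) - k)) := by ring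
      _ ≤ _ := mul_le_mul_of_nonneg_left (by linarith [(Nat.cast_nonneg k : (0 : ℝ) ≤ k)])
          (mul_nonneg (by linarith) (coeff_nonneg hν _ _))

theorem coeff_le (hν : |ν| < 1) (n : ℕ) : ∀ k, k ≤ n →
    (pade ν n).coeff k * 2 ^ k ≤ n.centralBinom * (n + 1).choose k
  | 0, _ => by simp [coeff_pade, rchoose, Nat.centralBinom_eq_two_mul_choose]
  | k + 1, hk => by
    have ih := coeff_le hν n k (by omega)
    have h1 := coeff_succ_le hν n k
    have hc : ((n + 1).choose (k + 1) : ℝ) * (k + 1) = ((n + 1).choose k : ℝ) * (n + 1 - k) := by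
      have := congrArg (fun j : ℕ => (j : ℝ)) (Nat.choose_succ_right_eq (n + 1) k)
      push_cast [Nat.cast_sub (show k ≤ n + 1 by omega)] at this
      exact this
    refine le_of_mul_le_mul_right ?_ (show (0 : ℝ) < k + 1 by positivity)
    calc (pade ν n).coeff (k + 1) * 2 ^ (k + 1) * (k + 1)
        = 2 * ((k : ℝ) + 1) * (pade ν n).coeff (k + 1) * 2 ^ k := by ring
      _ ≤ ((n : ℝ) + 1 - k) * (pade ν n).coeff k * 2 ^ k :=
          mul_le_mul_of_nonneg_right h1 (by positivity)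
      _ = ((n : ℝ) + 1 - k) * ((pade ν n).coeff k * 2 ^ k) := by ring
      _ ≤ ((n : ℝ) + 1 - k) * (n.centralBinom * (n + 1).choose k) := by
          refine mul_le_mul_of_nonneg_left ih ?_
          have : ((k : ℕ) : ℝ) ≤ n := Nat.cast_le.2 (by omega)
          linarith
      _ = (n.centralBinom : ℝ) * (n + 1).choose (k + 1) * (k + 1) := by
          rw [mul_assoc (n.centralBinom : ℝ), hc]; ring

theorem eval_le (hν : |ν| < 1) (n : ℕ) {t : ℝ} (ht : 0 ≤ t) :
    (pade ν n).eval t ≤ n.centralBinom * (1 + t / 2) ^ (n + 1) := by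
  rw [eval_eq ν n (Nat.lt_succ_self n) t, add_comm 1, add_pow, mul_sum]
  refine (sum_le_sum fun k hk => ?_).trans (sum_le_sum_of_subset_of_nonneg
    (Finset.range_mono (Nat.le_succ _)) fun k _ _ => by positivity)
  have h1 := mul_le_mul_of_nonneg_right
    (coeff_le hν n k (Nat.lt_succ_iff.1 (Finset.mem_range.1 hk)))
    (pow_nonneg (div_nonneg ht two_pos.le) k)
  rw [one_pow, mul_one]
  calc (pade ν n).coeff k * t ^ k = (pade ν n).coeff k * 2 ^ k * (t / 2) ^ k := by
        rw [mul_assoc, ← mul_pow, mul_div_cancel₀ t two_ne_zero]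
    _ ≤ _ := h1.trans_eq (by ring)

theorem eval_derivative_le (hν : |ν| < 1) (n : ℕ) {t : ℝ} (ht : 0 ≤ t) :
    2 * (derivative (pade ν n)).eval t ≤ ((n : ℝ) + 1) * (pade ν n).eval t := by
  have hd : (derivative (pade ν n)).natDegree < n + 1 :=
    ((natDegree_derivative_le _).trans (Nat.sub_le _ _)).trans_lt
      (Nat.lt_succ_iff.2 (natDegree_pade_le ν n))
  rw [eval_eq_sum_range' hd t, eval_eq ν n (Nat.lt_succ_self n) t, mul_sum, mul_sum]
  refine sum_le_sum fun k _ => ?_
  rw [coeff_derivative]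
  calc 2 * ((pade ν n).coeff (k + 1) * (k + 1) * t ^ k)
      = 2 * ((k : ℝ) + 1) * (pade ν n).coeff (k + 1) * t ^ k := by ring
    _ ≤ ((n : ℝ) + 1 - k) * (pade ν n).coeff k * t ^ k :=
        mul_le_mul_of_nonneg_right (coeff_succ_le hν n k) (pow_nonneg ht _)
    _ ≤ ((n : ℝ) + 1) * (pade ν n).coeff k * t ^ k :=
        mul_le_mul_of_nonneg_right (mul_le_mul_of_nonneg_right
          (by linarith [(Nat.cast_nonneg k : (0 : ℝ) ≤ k)]) (coeff_nonneg hν _ _))
          (pow_nonneg ht _)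
    _ = _ := by ring

theorem eval_mono (hν : |ν| < 1) (n : ℕ) {t : ℝ} (ht : 0 ≤ t) :
    (pade ν n).eval t ≤ (pade ν (n + 1)).eval t := by
  rw [eval_eq ν n (show n < n + 2 by omega) t, eval_eq ν (n + 1) (show n + 1 < n + 2 by omega) t]
  refine sum_le_sum fun k _ => mul_le_mul_of_nonneg_right ?_ (pow_nonneg ht _)
  rcases le_or_gt k n with h | h
  swap
  · rw [coeff_pade ν n, if_neg (by omega)]
    exact coeff_nonneg hν _ _
  rw [coeff_pade, coeff_pade, if_pos h, if_pos (show k ≤ n + 1 by omega)]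
  have hk : (k : ℝ) - 1 < n + ν := by
    have : (k : ℝ) ≤ n := Nat.cast_le.2 h
    linarith [(abs_lt.1 hν).1]
  refine mul_le_mul (prod_le_prod (fun i hi => ?_) fun i hi => ?_) (Nat.cast_le.2 ?_)
    (Nat.cast_nonneg _) (rchoose_pos (by push_cast; linarith)).le
  · refine div_nonneg ?_ (by positivity)
    have : ((i + 1 : ℕ) : ℝ) ≤ n := Nat.cast_le.2 ((Finset.mem_range.1 hi).trans_le h)
    push_cast at this
    linarith [(abs_lt.1 hν).1]
  · refine div_le_div_of_nonneg_right ?_ (by positivity)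
    push_cast
    linarith
  · rw [show 2 * (n + 1) - k = 2 * n - k + 1 + 1 by omega]
    refine le_trans ?_ (Nat.choose_le_choose (n + 1) (Nat.le_succ (2 * n - k + 1)))
    rw [Nat.choose_succ_succ']
    exact Nat.le_add_right _ _

theorem lead_mem (hν : |ν| < 1) (n : ℕ) :
    0 < lead ν n ∧ lead ν n ≤ 1 ∧ lead ν (n + 1) ≤ lead ν n := by
  have hform : ∀ m, lead ν (m + 1) = lead ν m * (1 - (ν / (m + 1)) ^ 2) := by
    intro m
    have step : ∀ μ : ℝ, rchoose ((m + 1 : ℕ) + μ) (m + 1) =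
        rchoose (m + μ) m * (((m : ℝ) + 1 + μ) / (m + 1)) := fun μ => by
      rw [rchoose, rchoose, Finset.prod_div_distrib, Finset.prod_div_distrib, prod_range_succ',
        prod_range_succ (fun i : ℕ => (i : ℝ) + 1), mul_div_mul_comm]
      congr 2
      · refine Finset.prod_congr rfl fun i _ => ?_
        push_cast
        ring
      · push_cast
        ring
    rw [lead, lead, step, step]
    field_simp
    ring
  have hfac : ∀ m : ℕ, 0 < 1 - (ν / ((m : ℝ) + 1)) ^ 2 ∧ 1 - (ν / ((m : ℝ) + 1)) ^ 2 ≤ 1 := by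
    intro m
    refine ⟨?_, by linarith [sq_nonneg (ν / ((m : ℝ) + 1))]⟩
    rw [sub_pos, sq_lt_one_iff_abs_lt_one, abs_div,
      abs_of_pos (show (0 : ℝ) < m + 1 by positivity), div_lt_one (by positivity)]
    linarith [(Nat.cast_nonneg m : (0 : ℝ) ≤ m)]
  have hall : ∀ m, 0 < lead ν m ∧ lead ν m ≤ 1 := by
    intro m
    induction m with
    | zero => simp [lead, rchoose]
    | succ m ih =>
      rw [hform]
      exact ⟨mul_pos ih.1 (hfac m).1,
        mul_le_one₀ ih.2 (hfac m).1.le (hfac m).2⟩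
  refine ⟨(hall n).1, (hall n).2, ?_⟩
  rw [hform]
  exact mul_le_of_le_one_right (hall n).1.le (hfac n).2

/-- The relative approximation. -/
def ratio (ν : ℝ) (n : ℕ) (t : ℝ) : ℝ :=
  (pade (-ν) n).eval t * (1 + t) ^ ν / (pade ν n).eval t

theorem hasDerivAt_ratio (hν : |ν| < 1) (n : ℕ) {t : ℝ} (ht : 0 ≤ t) :
    HasDerivAt (ratio ν n)
      (ν * lead ν n * t ^ (2 * n) * (1 + t) ^ (ν - 1) / (pade ν n).eval t ^ 2) t := by
  have h1 : HasDerivAt (fun s : ℝ => (1 + s) ^ ν) (1 * ν * (1 + t) ^ (ν - 1)) t :=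
    ((hasDerivAt_id t).const_add 1).rpow_const (Or.inl (by simp; linarith))
  refine ((((pade (-ν) n).hasDerivAt t).mul h1).div ((pade ν n).hasDerivAt t)
    (eval_pos hν n ht).ne').congr_deriv ?_
  have hw := congrArg (fun T : ℝ[X] => T.eval t) (wronskian ν n)
  simp only [eval_add, eval_mul, eval_sub, eval_one, eval_X, eval_C, eval_pow] at hw
  have hsplit : (1 + t) ^ ν = (1 + t) ^ (ν - 1) * (1 + t) := by
    rw [Real.rpow_sub_one (by linarith), div_mul_cancel₀ _ (by linarith)]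
  simp only [Pi.mul_apply]
  rw [hsplit]
  congr 1
  linear_combination (1 + t) ^ (ν - 1) * hw

theorem ratio_zero (ν : ℝ) (n : ℕ) : ratio ν n 0 = 1 := by
  have h : ∀ μ : ℝ, (pade μ n).eval 0 = n.centralBinom := fun μ => by
    rw [← coeff_zero_eq_eval_zero]
    simp [coeff_pade, rchoose, Nat.centralBinom_eq_two_mul_choose]
  rw [ratio, h, h, add_zero, Real.one_rpow, mul_one,
    div_self (Nat.cast_ne_zero.2 (Nat.centralBinom_ne_zero n))]

theorem pow_div_sq_mono (hν : |ν| < 1) (n : ℕ) {t z : ℝ} (ht : 0 ≤ t) (htz : t ≤ z)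
    (hz : z ≤ 1 / 2) : t ^ n / (pade ν n).eval t ^ 2 ≤ z ^ n / (pade ν n).eval z ^ 2 := by
  have hne : ∀ s ∈ Set.Icc (0 : ℝ) (1 / 2), (pade ν n).eval s ^ 2 ≠ 0 := fun s hs =>
    pow_ne_zero _ (eval_pos hν n hs.1).ne'
  refine (monotoneOn_of_hasDerivWithinAt_nonneg (convex_Icc (0 : ℝ) (1 / 2))
    (f := fun s => s ^ n / (pade ν n).eval s ^ 2)
    (f' := fun s => ((n : ℝ) * s ^ (n - 1) * (pade ν n).eval s ^ 2 -
      s ^ n * (2 * (pade ν n).eval s * (derivative (pade ν n)).eval s)) /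
      ((pade ν n).eval s ^ 2) ^ 2)
    ((continuous_pow n).continuousOn.div
      (((pade ν n).continuous.pow 2).continuousOn) hne) (fun s hs => ?_) fun s hs => ?_)
    ⟨ht, htz.trans hz⟩ ⟨ht.trans htz, hz⟩ htz
  · rw [interior_Icc] at hs
    refine HasDerivAt.hasDerivWithinAt ((((hasDerivAt_id s).pow n)).div
      (((pade ν n).hasDerivAt s).pow 2) (hne s ⟨hs.1.le, hs.2.le⟩) |>.congr_deriv ?_)
    simp only [id_eq, Pi.pow_apply, mul_one, Nat.cast_ofNat, Nat.add_one_sub_one, pow_one]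
  · rw [interior_Icc] at hs
    refine div_nonneg ?_ (sq_nonneg _)
    rcases n with - | m
    · simp [pade, rchoose]
    obtain ⟨P, hP⟩ : ∃ P, P = (pade ν (m + 1)).eval s := ⟨_, rfl⟩
    obtain ⟨D, hD⟩ : ∃ D, D = (derivative (pade ν (m + 1))).eval s := ⟨_, rfl⟩
    rw [← hP, ← hD, Nat.add_sub_cancel, pow_succ s m]
    have hPpos : 0 < P := hP ▸ eval_pos hν _ hs.1.le
    have hd : 2 * D ≤ (((m + 1 : ℕ) : ℝ) + 1) * P := by
      rw [hP, hD]; exact eval_derivative_le hν _ hs.1.le
    push_cast at hd ⊢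
    have h3 : 0 ≤ ((m : ℝ) + 1) * P - s * (2 * D) := by
      have h4 : s * (2 * D) ≤ s * (((m : ℝ) + 1 + 1) * P) := mul_le_mul_of_nonneg_left hd hs.1.le
      have h5 : s * (((m : ℝ) + 1 + 1) * P) ≤ 1 / 2 * (((m : ℝ) + 1 + 1) * P) :=
        mul_le_mul_of_nonneg_right hs.2.le (by positivity)
      have h6 : 0 ≤ (m : ℝ) * P := mul_nonneg (Nat.cast_nonneg m) hPpos.le
      linarith
    have := mul_nonneg (mul_nonneg (pow_nonneg hs.1.le m) hPpos.le) h3
    linarith

/-- **The size of the error.** -/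
theorem ratio_bound (hν0 : 0 ≤ ν) (hν1 : ν < 1) (n : ℕ) {z : ℝ} (hz0 : 0 ≤ z) (hz : z ≤ 1 / 2) :
    |ratio ν n z - 1| ≤ ν * z ^ (2 * n + 1) / (((n : ℝ) + 1) * (pade ν n).eval z ^ 2) := by
  have hν : |ν| < 1 := by rwa [abs_of_nonneg hν0]
  obtain ⟨c, hc⟩ : ∃ c, c = ν * z ^ n / (((n : ℝ) + 1) * (pade ν n).eval z ^ 2) := ⟨_, rfl⟩
  have hdeg : ∀ s ∈ Set.Icc 0 z,
      HasDerivAt (fun s => c * s ^ (n + 1) - ratio ν n s)
        (c * (((n + 1 : ℕ) : ℝ) * s ^ n) -
          ν * lead ν n * s ^ (2 * n) * (1 + s) ^ (ν - 1) / (pade ν n).eval s ^ 2) s := by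
    intro s hs
    refine (((hasDerivAt_id s).pow (n + 1)).const_mul c |>.congr_deriv ?_).sub
      (hasDerivAt_ratio hν n hs.1)
    simp
  have hratio : ∀ s ∈ Set.Icc 0 z, HasDerivAt (ratio ν n)
      (ν * lead ν n * s ^ (2 * n) * (1 + s) ^ (ν - 1) / (pade ν n).eval s ^ 2) s :=
    fun s hs => hasDerivAt_ratio hν n hs.1
  have hup : (fun s => c * s ^ (n + 1) - ratio ν n s) 0 ≤
      (fun s => c * s ^ (n + 1) - ratio ν n s) z := by
    refine monotoneOn_of_hasDerivWithinAt_nonneg (convex_Icc 0 z)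
      (fun s hs => (hdeg s hs).continuousAt.continuousWithinAt)
      (fun s hs => (hdeg s (interior_subset hs)).hasDerivWithinAt) (fun s hs => ?_)
      ⟨le_rfl, hz0⟩ ⟨hz0, le_rfl⟩ hz0
    have hs' := interior_subset hs
    obtain ⟨hl0, hl1, -⟩ := lead_mem hν n
    have hw : (1 + s) ^ (ν - 1) ≤ 1 :=
      Real.rpow_le_one_of_one_le_of_nonpos (by linarith [hs'.1]) (by linarith)
    have hw0 : 0 ≤ (1 + s) ^ (ν - 1) := Real.rpow_nonneg (by linarith [hs'.1]) _
    rw [sub_nonneg]
    calc ν * lead ν n * s ^ (2 * n) * (1 + s) ^ (ν - 1) / (pade ν n).eval s ^ 2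
        = ν * s ^ n * (lead ν n * (1 + s) ^ (ν - 1)) * (s ^ n / (pade ν n).eval s ^ 2) := by ring
      _ ≤ ν * s ^ n * 1 * (z ^ n / (pade ν n).eval z ^ 2) := by
          refine mul_le_mul (mul_le_mul_of_nonneg_left (mul_le_one₀ hl1 hw0 hw)
            (mul_nonneg hν0 (pow_nonneg hs'.1 _))) (pow_div_sq_mono hν n hs'.1 hs'.2 hz)
            (div_nonneg (pow_nonneg hs'.1 _) (sq_nonneg _)) ?_
          exact mul_nonneg (mul_nonneg hν0 (pow_nonneg hs'.1 _)) one_pos.le
      _ = _ := by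
          rw [hc]
          push_cast
          field_simp
  have hlow : ratio ν n 0 ≤ ratio ν n z := by
    refine monotoneOn_of_hasDerivWithinAt_nonneg (convex_Icc 0 z)
      (fun s hs => (hratio s hs).continuousAt.continuousWithinAt)
      (fun s hs => (hratio s (interior_subset hs)).hasDerivWithinAt) (fun s hs => ?_)
      ⟨le_rfl, hz0⟩ ⟨hz0, le_rfl⟩ hz0
    have hs' := interior_subset hs
    exact div_nonneg (mul_nonneg (mul_nonneg (mul_nonneg hν0 (lead_mem hν n).1.le)
      (pow_nonneg hs'.1 _)) (Real.rpow_nonneg (by linarith [hs'.1]) _)) (sq_nonneg _)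
  simp only [ratio_zero, zero_pow (Nat.succ_ne_zero n), mul_zero] at hup hlow
  rw [abs_of_nonneg (sub_nonneg.2 hlow)]
  have e : c * z ^ (n + 1) =
      ν * z ^ (2 * n + 1) / (((n : ℝ) + 1) * (pade ν n).eval z ^ 2) := by
    rw [hc]; ring
  linarith

/-- **Consecutive approximations differ.** -/
theorem ratio_succ_lt (hν0 : 0 < ν) (hν1 : ν < 1) (n : ℕ) {z : ℝ} (hz0 : 0 < z) (hz : z ≤ 1) :
    ratio ν (n + 1) z < ratio ν n z := by
  have hν : |ν| < 1 := by rwa [abs_of_pos hν0]
  have h := strictMonoOn_of_hasDerivWithinAt_pos (convex_Icc 0 z)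
    (f := fun s => ratio ν n s - ratio ν (n + 1) s)
    (fun s hs => ((hasDerivAt_ratio hν n hs.1).sub
      (hasDerivAt_ratio hν (n + 1) hs.1)).continuousAt.continuousWithinAt)
    (fun s hs => ((hasDerivAt_ratio hν n (interior_subset hs).1).sub
      (hasDerivAt_ratio hν (n + 1) (interior_subset hs).1)).hasDerivWithinAt)
    (fun s hs => ?_) ⟨le_rfl, hz0.le⟩ ⟨hz0.le, le_rfl⟩ hz0
  · simp only [ratio_zero, sub_self] at h
    linarith
  rw [interior_Icc] at hs
  obtain ⟨hl0, -, hl1⟩ := lead_mem hν n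
  have hP := eval_pos hν n hs.1.le
  have hP' := eval_pos hν (n + 1) hs.1.le
  have hw := Real.rpow_pos_of_pos (show (0 : ℝ) < 1 + s by linarith [hs.1]) (ν - 1)
  rw [sub_pos]
  refine lt_of_le_of_lt (b := ν * lead ν n * s ^ (2 * (n + 1)) * (1 + s) ^ (ν - 1) /
    (pade ν n).eval s ^ 2) ?_ ?_
  · refine div_le_div₀ ?_ ?_ (pow_pos hP 2) (pow_le_pow_left₀ hP.le (eval_mono hν n hs.1.le) 2)
    · exact mul_nonneg (mul_nonneg (mul_nonneg hν0.le hl0.le) (pow_nonneg hs.1.le _)) hw.le
    · exact mul_le_mul_of_nonneg_right (mul_le_mul_of_nonneg_right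
        (mul_le_mul_of_nonneg_left hl1 hν0.le) (pow_nonneg hs.1.le _)) hw.le
  · refine div_lt_div_of_pos_right (mul_lt_mul_of_pos_right (mul_lt_mul_of_pos_left ?_
      (mul_pos hν0 hl0)) hw) (pow_pos hP 2)
    exact pow_lt_pow_right_of_lt_one₀ hs.1 (hs.2.trans_le hz) (by omega)

end FA.BakerCubeRoot

end
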